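import Fermat.Prelude.Def_GroupCohomology_ContinuousUnramified
import Mathlib.LinearAlgebra.Matrix.Trace
import Mathlib.LinearAlgebra.Matrix.Adjugate

/-!
# The trace zero adjoint module

For `ρ : G →* M₂(k)`, `k` a field over `𝔽_p`, `adRep p ρ` is the `𝔽_p[G]`-module of trace zero
matrices with `g · X = ρ g * X * ρ g⁻¹`.
-/

set_option autoImplicit false

noncomputable section

open CategoryTheory

namespace FermatLib.MLT.Ad

variable {k : Type} [Field k]

variable (k) in
/-- Trace zero matrices. -/
def traceZero : Submodule k (Matrix (Fin 2) (Fin 2) k) :=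
  LinearMap.ker (Matrix.traceLinearMap (Fin 2) k k)

lemma mem_traceZero {X : Matrix (Fin 2) (Fin 2) k} : X ∈ traceZero k ↔ X.trace = 0 := Iff.rfl

variable (k) in
/-- Coordinates on trace zero matrices. -/
def traceZeroEquiv : traceZero k ≃ₗ[k] (Fin 3 → k) where
  toFun X := ![X.1 0 0, X.1 0 1, X.1 1 0]
  map_add' X Y := by ext i; fin_cases i <;> rfl
  map_smul' c X := by ext i; fin_cases i <;> rfl
  invFun v := ⟨!![v 0, v 1; v 2, -v 0], by simp [mem_traceZero, Matrix.trace_fin_two]⟩
  left_inv X := by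
    have h : X.1 0 0 + X.1 1 1 = 0 := by rw [← Matrix.trace_fin_two]; exact X.2
    apply Subtype.ext
    ext i j
    fin_cases i <;> fin_cases j <;>
      first | rfl | simp [eq_neg_of_add_eq_zero_right h]
  right_inv v := by ext i; fin_cases i <;> rfl

theorem finrank_traceZero : Module.finrank k (traceZero k) = 3 := by
  rw [(traceZeroEquiv k).finrank_eq, Module.finrank_fin_fun]

variable {G : Type} [Group G] (ρ : G →* Matrix (Fin 2) (Fin 2) k)

lemma rho_mul_inv (g : G) : ρ g * ρ g⁻¹ = 1 := by rw [← map_mul, mul_inv_cancel, map_one]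

lemma rho_inv_mul (g : G) : ρ g⁻¹ * ρ g = 1 := by rw [← map_mul, inv_mul_cancel, map_one]

lemma trace_conj (g : G) (X : Matrix (Fin 2) (Fin 2) k) :
    (ρ g * X * ρ g⁻¹).trace = X.trace := by
  rw [Matrix.trace_mul_cycle, rho_inv_mul, one_mul]

/-- Conjugation on trace zero matrices. -/
def adFun (g : G) : traceZero k →ₗ[k] traceZero k where
  toFun X := ⟨ρ g * X.1 * ρ g⁻¹, by rw [mem_traceZero, trace_conj]; exact X.2⟩
  map_add' X Y := Subtype.ext (by simp [mul_add, add_mul])
  map_smul' c X := Subtype.ext (by simp)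

variable (p : ℕ) [Fact p.Prime] [Algebra (ZMod p) k]

/-- The representation. -/
def adRepr : Representation (ZMod p) G (traceZero k) where
  toFun g := (adFun ρ g).restrictScalars (ZMod p)
  map_one' := LinearMap.ext fun X => Subtype.ext (by simp [adFun])
  map_mul' g h := LinearMap.ext fun X => Subtype.ext (by
    show ρ (g * h) * X.1 * ρ (g * h)⁻¹ = ρ g * (ρ h * X.1 * ρ h⁻¹) * ρ g⁻¹
    rw [map_mul, mul_inv_rev, map_mul]
    simp only [mul_assoc])

/-- The trace zero adjoint module. -/
abbrev adRep : Rep (ZMod p) G := Rep.of (adRepr ρ p)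

lemma adRep_eq_one_of_eq_one {g : G} (hg : ρ g = 1) : (adRep ρ p).ρ g = 1 :=
  LinearMap.ext fun X => Subtype.ext <| by
    have hg' : ρ g⁻¹ = 1 := by
      have h := rho_mul_inv ρ g
      rwa [hg, one_mul] at h
    show ρ g * X.1 * ρ g⁻¹ = X.1
    rw [hg, hg', one_mul, mul_one]

instance [Finite k] : FiniteDimensional (ZMod p) (adRep ρ p) := by
  have : Finite (traceZero k) := Finite.of_injective _ (traceZeroEquiv k).injective
  exact Module.Finite.of_finite

end FermatLib.MLT.Ad

end
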