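import Fermat.Agent.MLT.FrameRing
import Fermat.Agent.MLT.Ad.Basic

/-!
# Tangent vectors as adjoint cohomology classes

A tangent vector `l` of `R` and a representation `M` over `R` of fixed determinant give the cocycle
`g ↦ l(M g) * ρ g⁻¹` with values in the trace zero adjoint module of `ρ = M mod m`.
-/

set_option autoImplicit false

noncomputable section

open IsLocalRing CategoryTheory groupCohomology

namespace FermatLib.MLT.Ad

open FermatLib.Galois.Deform

attribute [local instance] FermatLib.Galois.Deform.dualAlgebra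

variable {𝒪 : Type} [CommRing 𝒪] [IsLocalRing 𝒪] {R : Type} [CommRing R] [IsLocalRing R]
  [Algebra 𝒪 R] (π : R →ₐ[𝒪] ResidueField 𝒪)
  {G : Type} [Group G] (M : G →* Matrix (Fin 2) (Fin 2) R)
  (ρ : G →* Matrix (Fin 2) (Fin 2) (ResidueField 𝒪)) (hρ : ∀ g, (M g).map π = ρ g)
  (χ : G → 𝒪) (hdet : ∀ g, (M g).det = algebraMap 𝒪 R (χ g))
  {κ : Type} (aR : κ → R)

/-- The cocycle of a tangent vector. -/
def deriv (l : R → ResidueField 𝒪) (g : G) : Matrix (Fin 2) (Fin 2) (ResidueField 𝒪) :=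
  (M g).map l * ρ g⁻¹

lemma map_tangent_mul {l : R → ResidueField 𝒪} (hl : l ∈ tangentSpace π aR)
    (A B : Matrix (Fin 2) (Fin 2) R) :
    (A * B).map l = A.map l * B.map π + A.map π * B.map l := by
  obtain ⟨φ, -, rfl⟩ := hl
  exact Frame.map_dualSnd_mul π φ A B

include hρ in
theorem deriv_mul {l : R → ResidueField 𝒪} (hl : l ∈ tangentSpace π aR) (g h : G) :
    deriv M ρ l (g * h) = deriv M ρ l g + ρ g * deriv M ρ l h * ρ g⁻¹ := by
  rw [deriv, deriv, deriv, map_mul, map_tangent_mul π aR hl, hρ, hρ, mul_inv_rev, map_mul, add_mul]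
  congr 1
  · rw [mul_assoc, ← mul_assoc (ρ h), rho_mul_inv, one_mul]
  · simp only [mul_assoc]

include hρ hdet in
theorem trace_deriv {l : R → ResidueField 𝒪} (hl : l ∈ tangentSpace π aR) (g : G) :
    (deriv M ρ l g).trace = 0 := by
  obtain ⟨φ, -, rfl⟩ := hl
  have hadd : ∀ u v, dualSnd φ (u - v) = dualSnd φ u - dualSnd φ v := fun u v => by simp [dualSnd]
  have hmul : ∀ u v, dualSnd φ (u * v) = dualSnd φ u * π v + π u * dualSnd φ v := fun u v => by
    simp [dualSnd, fst_dualPoint π, add_comm, mul_comm]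
  have h0 := congrArg (dualSnd φ) (hdet g)
  rw [dualSnd_algebraMap, Matrix.det_fin_two, hadd, hmul, hmul] at h0
  have hπ : ∀ i j, π (M g i j) = ρ g i j := fun i j => congrFun (congrFun (hρ g) i) j
  simp only [hπ] at h0
  have hadj : (ρ g).adjugate = (ρ g).det • ρ g⁻¹ := by
    calc (ρ g).adjugate = (ρ g).adjugate * (ρ g * ρ g⁻¹) := by rw [rho_mul_inv, mul_one]
      _ = (ρ g).det • ρ g⁻¹ := by rw [← mul_assoc, Matrix.adjugate_mul, smul_mul_assoc, one_mul]
  have hd : (ρ g).det ≠ 0 := fun h => by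
    have := congrArg Matrix.det (rho_mul_inv ρ g)
    rw [Matrix.det_mul, h, zero_mul, Matrix.det_one] at this
    exact zero_ne_one this
  have h1 : (ρ g).det * (deriv M ρ (dualSnd φ) g).trace = 0 := by
    rw [← smul_eq_mul, ← Matrix.trace_smul, deriv, ← mul_smul_comm, ← hadj,
      Matrix.adjugate_fin_two, Matrix.trace_fin_two]
    simp only [Matrix.mul_apply, Fin.sum_univ_two, Matrix.map_apply, Matrix.cons_val_zero,
      Matrix.cons_val_one, Matrix.of_apply]
    linear_combination h0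
  exact (mul_eq_zero.mp h1).resolve_left hd

variable (p : ℕ) [Fact p.Prime] [Algebra (ZMod p) (ResidueField 𝒪)]

/-- The cocycle of a tangent vector, as a linear map. -/
def toCocycle : tangentSpace π aR →ₗ[ZMod p] cocycles₁ (adRep ρ p) where
  toFun l := ⟨fun g => (⟨deriv M ρ l.1 g, mem_traceZero.mpr (trace_deriv π M ρ hρ χ hdet aR l.2 g)⟩ :
      traceZero (ResidueField 𝒪)), (mem_cocycles₁_iff _).mpr fun g h => Subtype.ext (by
    show deriv M ρ l.1 (g * h) = ρ g * deriv M ρ l.1 h * ρ g⁻¹ + deriv M ρ l.1 g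
    rw [deriv_mul π M ρ hρ aR l.2, add_comm])⟩
  map_add' l l' := Subtype.ext (funext fun g => Subtype.ext (by
    show (M g).map (l.1 + l'.1) * ρ g⁻¹ = (M g).map l.1 * ρ g⁻¹ + (M g).map l'.1 * ρ g⁻¹
    rw [← add_mul]
    rfl))
  map_smul' c l := Subtype.ext (funext fun g => Subtype.ext (by
    show (M g).map (c • l.1) * ρ g⁻¹ = c • ((M g).map l.1 * ρ g⁻¹)
    rw [← smul_mul_assoc]
    rfl))

/-- The class of a tangent vector. -/
def classMap : tangentSpace π aR →ₗ[ZMod p] H1 (adRep ρ p) :=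
  (H1π (adRep ρ p)).hom.comp (toCocycle π M ρ hρ χ hdet aR p)

/-- The class restricted to a subgroup vanishes iff the derivative is a coboundary there. -/
theorem map_classMap_eq_zero_iff (h2 : (2 : ResidueField 𝒪) ≠ 0) {H : Type} [Group H]
    (f : H →* G) (l : tangentSpace π aR) :
    (groupCohomology.map f (𝟙 (Rep.res f (adRep ρ p))) 1).hom
        (classMap π M ρ hρ χ hdet aR p l) = 0 ↔
      ∃ X : Matrix (Fin 2) (Fin 2) (ResidueField 𝒪),
        ∀ h, (M (f h)).map l.1 = ρ (f h) * X - X * ρ (f h) := by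
  rw [classMap, LinearMap.comp_apply, H1π_comp_map_apply f]
  constructor
  · intro hz
    obtain ⟨Y, hY⟩ := (H1π_eq_zero_iff _).mp hz
    refine ⟨(Y : traceZero (ResidueField 𝒪)).1, fun h => ?_⟩
    have e : ρ (f h) * (Y : traceZero (ResidueField 𝒪)).1 * ρ (f h)⁻¹ -
        (Y : traceZero (ResidueField 𝒪)).1 = (M (f h)).map l.1 * ρ (f h)⁻¹ := by
      exact congrArg Subtype.val (congrFun hY h)
    calc (M (f h)).map l.1 = (M (f h)).map l.1 * ρ (f h)⁻¹ * ρ (f h) := by
          rw [mul_assoc, rho_inv_mul, mul_one]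
      _ = _ := by rw [← e, sub_mul, mul_assoc, rho_inv_mul, mul_one]
  · rintro ⟨X, hX⟩
    refine (H1π_eq_zero_iff _).mpr ⟨(⟨X - (X.trace / 2) • 1, mem_traceZero.mpr (by
      rw [Matrix.trace_sub, Matrix.trace_smul, Matrix.trace_one, Fintype.card_fin, smul_eq_mul]
      push_cast
      field_simp
      ring)⟩ : traceZero (ResidueField 𝒪)), funext fun h => Subtype.ext ?_⟩
    show ρ (f h) * (X - (X.trace / 2) • 1) * ρ (f h)⁻¹ - (X - (X.trace / 2) • 1) =
      (M (f h)).map l.1 * ρ (f h)⁻¹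
    rw [hX, mul_sub, sub_mul, sub_mul, mul_smul_comm, mul_one, smul_mul_assoc, rho_mul_inv,
      mul_assoc X, rho_mul_inv, mul_one]
    abel

/-- If tangent vectors are determined by traces, so is their class. -/
theorem classMap_injective
    (hgen : ∀ l ∈ tangentSpace π aR, (∀ g, l (M g).trace = 0) → l = 0) :
    Function.Injective (classMap π M ρ hρ χ hdet aR p) := by
  refine (injective_iff_map_eq_zero _).mpr fun l hl => Subtype.ext (hgen l.1 l.2 fun g => ?_)
  obtain ⟨Y, hY⟩ := (H1π_eq_zero_iff _).mp hl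
  have e : ρ g * (Y : traceZero (ResidueField 𝒪)).1 * ρ g⁻¹ -
      (Y : traceZero (ResidueField 𝒪)).1 = (M g).map l.1 * ρ g⁻¹ :=
    congrArg Subtype.val (congrFun hY g)
  have hd : (M g).map l.1 = ρ g * (Y : traceZero (ResidueField 𝒪)).1 -
      (Y : traceZero (ResidueField 𝒪)).1 * ρ g := by
    calc (M g).map l.1 = (M g).map l.1 * ρ g⁻¹ * ρ g := by rw [mul_assoc, rho_inv_mul, mul_one]
      _ = _ := by rw [← e, sub_mul, mul_assoc, rho_inv_mul, mul_one]
  obtain ⟨φ, -, hφ⟩ := l.2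
  have htr : ((M g).map l.1).trace = l.1 (M g).trace := by
    rw [← hφ]
    simp [dualSnd, Matrix.trace_fin_two]
  rw [← htr, hd, Matrix.trace_sub, Matrix.trace_mul_comm, sub_self]

end FermatLib.MLT.Ad

end
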