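import Mathlib
import Fermat.Agent.MLT.Ad.Tangent

/-!
# The class of a tangent vector is continuous and unramified outside `S`
-/

set_option autoImplicit false

noncomputable section

open IsLocalRing CategoryTheory groupCohomology

namespace FermatLib.MLT.Ad

open FermatLib.Galois.Deform

attribute [local instance] FermatLib.Galois.Deform.dualAlgebra

local instance adQbarIsGalois : IsGalois ℚ (AlgebraicClosure ℚ) :=
  have : IsAlgClosure ℚ (AlgebraicClosure ℚ) := ⟨inferInstance, AlgebraicClosure.isAlgebraic ℚ⟩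
  IsAlgClosure.isGalois ℚ (AlgebraicClosure ℚ)

variable {𝒪 : Type} [CommRing 𝒪] [IsLocalRing 𝒪] {R : Type} [CommRing R] [IsLocalRing R]
  [Algebra 𝒪 R] (π : R →ₐ[𝒪] ResidueField 𝒪)
  (M : GQ →* M2 R) (ρ : GQ →* M2 (ResidueField 𝒪)) (hρ : ∀ g, (M g).map π = ρ g)
  (χ : GQ → 𝒪) (hdet : ∀ g, (M g).det = algebraMap 𝒪 R (χ g))
  {κ : Type} (aR : κ → R) (p : ℕ) [Fact p.Prime] [Algebra (ZMod p) (ResidueField 𝒪)]

lemma tangent_one_and_sq {l : R → ResidueField 𝒪} (hl : l ∈ tangentSpace π aR) :
    l 1 = 0 ∧ ∀ x ∈ maximalIdeal R ^ 2, ∀ y, l (x + y) = l y := by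
  obtain ⟨φ, -, rfl⟩ := hl
  refine ⟨by simp [dualSnd], fun x hx y => ?_⟩
  suffices h : dualSnd φ x = 0 by
    rw [dualSnd, map_add, TrivSqZeroExt.snd_add]
    exact (congrArg (· + _) h).trans (zero_add _)
  rw [pow_two] at hx
  refine Submodule.mul_induction_on hx ?_ ?_
  · intro u hu v hv
    simp [dualSnd, fst_dualPoint π, (res_eq_zero_iff π u).mpr hu, (res_eq_zero_iff π v).mpr hv]
  · intro u v hu hv
    simp only [dualSnd, map_add, TrivSqZeroExt.snd_add] at hu hv ⊢
    rw [hu, hv, add_zero]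

/-- **The class lies in `H¹(G_S, ad⁰)`.** -/
theorem classMap_mem_continuousH1S (hM : MatCont M) (S : Finset Nat.Primes)
    (hur : ∀ q : Nat.Primes, q ∉ S → ∀ A : ValuationSubring (AlgebraicClosure ℚ),
      A.LiesOverPrime (q : ℕ) → ∀ g ∈ A.inertiaSubgroupIn ℚ, M g = 1)
    (l : tangentSpace π aR) :
    classMap π M ρ hρ χ hdet aR p l ∈ continuousH1S S (adRep ρ p) := by
  obtain ⟨hl1, hl2⟩ := tangent_one_and_sq π aR l.2
  have hone : (1 : M2 R).map l.1 = 0 := by
    ext i j
    have h0 : l.1 0 = 0 := by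
      have := hl2 0 (Ideal.zero_mem _)
      obtain ⟨φ, -, hφ⟩ := l.2
      rw [← hφ]; simp [dualSnd]
    rcases eq_or_ne i j with h | h <;> simp [h, hl1, h0]
  let K : Subgroup GQ :=
    { carrier := {g | ρ g = 1 ∧ (M g).map l.1 = 0}
      one_mem' := ⟨map_one ρ, by rw [map_one, hone]⟩
      mul_mem' := fun {a b} ⟨ha, ha'⟩ ⟨hb, hb'⟩ => ⟨by rw [map_mul, ha, hb, one_mul], by
        rw [map_mul, map_tangent_mul π aR l.2, ha', hb', zero_mul, mul_zero, add_zero]⟩
      inv_mem' := fun {a} ⟨ha, ha'⟩ => by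
        have hinv : ρ a⁻¹ = 1 := by
          have h := rho_mul_inv ρ a
          rwa [ha, one_mul] at h
        refine ⟨hinv, ?_⟩
        have h := map_tangent_mul π aR l.2 (M a) (M a⁻¹)
        rw [← map_mul, mul_inv_cancel, map_one, hone, ha', hρ a, ha, zero_mul, zero_add,
          one_mul] at h
        exact h.symm }
  obtain ⟨L, hL, hLM⟩ := hM 2
  have hLK : L.fixingSubgroup ≤ K := fun g hg => by
    have hg' : ∀ x ∈ L, g x = x := (IntermediateField.mem_fixingSubgroup_iff _ _).mp hg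
    have key : ∀ i j, l.1 (M g i j) = l.1 ((1 : M2 R) i j) ∧
        π (M g i j) = π ((1 : M2 R) i j) := fun i j => by
      have hm := hLM g hg' i j
      rw [Matrix.sub_apply] at hm
      refine ⟨?_, sub_eq_zero.mp ?_⟩
      · have := hl2 _ hm ((1 : M2 R) i j)
        rwa [sub_add_cancel] at this
      · rw [← map_sub, res_eq_zero_iff π]
        exact Ideal.pow_le_self two_ne_zero hm
    constructor
    · rw [← hρ]
      ext i j
      rw [Matrix.map_apply, (key i j).2]
      rcases eq_or_ne i j with h | h <;> simp [Matrix.one_apply, h]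
    · rw [← hone]
      ext i j
      exact (key i j).1
  have hfix : (IntermediateField.fixedField K).fixingSubgroup = K :=
    InfiniteGalois.fixingSubgroup_fixedField ⟨K, Subgroup.isClosed_of_isOpen K
      (Subgroup.isOpen_mono hLK (IntermediateField.fixingSubgroup_isOpen L))⟩
  have hle : IntermediateField.fixedField K ≤ L := by
    rw [← InfiniteGalois.fixedField_fixingSubgroup L]
    exact fun x hx s => hx ⟨s.1, hLK s.2⟩
  refine (mem_continuousH1S_iff S _ _).mpr
    ⟨toCocycle π M ρ hρ χ hdet aR p l, ⟨IntermediateField.fixedField K,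
      ⟨FiniteDimensional.of_injective (IntermediateField.inclusion hle).toLinearMap
        (IntermediateField.inclusion_injective hle), fun q hq A hA g hg => ?_⟩,
      fun g s hs => ?_⟩, rfl⟩
  · rw [hfix]
    have h1 := hur q hq A hA g hg
    exact ⟨by rw [← hρ, h1, Matrix.map_one _ (map_zero _) (map_one _)], by rw [h1, hone]⟩
  · rw [hfix] at hs
    refine Subtype.ext ?_
    show (M (g * s)).map l.1 * ρ (g * s)⁻¹ = (M g).map l.1 * ρ g⁻¹
    rw [map_mul M, map_tangent_mul π aR l.2, hs.2, hρ s, hs.1,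
      mul_one, mul_zero, add_zero, mul_inv_rev, map_mul]
    have hinv : ρ s⁻¹ = 1 := by
      have h := rho_mul_inv ρ s
      rwa [hs.1, one_mul] at h
    rw [hinv, one_mul]

end FermatLib.MLT.Ad

end
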